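/-
S06 wiring, piece L1 (helper56): elementary facts about the integral Frey model
`P.freyCurveInt`: it base-changes to `P.freyCurve`, its discriminant is
`(a^p)^2 (b^p)^2 (c^p)^2 / 256 ≠ 0`, its bad primes divide `a b c`, and it is a
semistable model.
-/
import Mathlib
import Fermat.Prelude.Def_FLTPrelim_FreyPackage
import Fermat.Prelude.Def_FLTPrelim_Modularity

set_option autoImplicit false

namespace Fermat.Agent.S06.FreyInt

open WeierstrassCurve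

variable (P : FreyPackage)

/-- `2 ∣ b`. -/
theorem two_dvd_b : (2 : ℤ) ∣ P.b :=
  (ZMod.intCast_zmod_eq_zero_iff_dvd P.b 2).1 P.hb2

/-- `32 ∣ b ^ p`. -/
theorem thirtytwo_dvd_b_pow : (32 : ℤ) ∣ P.b ^ P.p := by
  obtain ⟨k, hk⟩ := two_dvd_b P
  have h5 : (P.b) ^ 5 ∣ P.b ^ P.p := pow_dvd_pow _ P.hp5
  refine dvd_trans ?_ h5
  rw [hk]
  exact ⟨k ^ 5, by ring⟩

/-- `a ^ p ≡ 3 mod 4`. -/
theorem a_pow_mod_four : ((P.a ^ P.p : ℤ) : ZMod 4) = 3 := by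
  obtain ⟨k, hk⟩ := P.hp_odd
  push_cast
  rw [P.ha4, hk, pow_succ, pow_mul]
  have h9 : ((3 : ZMod 4)) ^ 2 = 1 := by decide
  rw [h9, one_pow, one_mul]

/-- `4 ∣ b^p - 1 - a^p`. -/
theorem four_dvd_a₂_num : (4 : ℤ) ∣ P.b ^ P.p - 1 - P.a ^ P.p := by
  refine (ZMod.intCast_zmod_eq_zero_iff_dvd _ 4).1 ?_
  have hb : ((P.b ^ P.p : ℤ) : ZMod 4) = 0 := by
    rw [ZMod.intCast_zmod_eq_zero_iff_dvd]
    exact dvd_trans (by norm_num) (thirtytwo_dvd_b_pow P)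
  have ha := a_pow_mod_four P
  push_cast at hb ha ⊢
  rw [hb, ha]
  decide

/-- `16 ∣ -(a^p) * b^p`. -/
theorem sixteen_dvd_a₄_num : (16 : ℤ) ∣ -(P.a ^ P.p) * (P.b ^ P.p) :=
  dvd_mul_of_dvd_right (dvd_trans (by norm_num) (thirtytwo_dvd_b_pow P)) _

theorem four_mul_a₂ : 4 * P.freyCurveInt.a₂ = P.b ^ P.p - 1 - P.a ^ P.p :=
  Int.mul_ediv_cancel' (four_dvd_a₂_num P)

theorem sixteen_mul_a₄ : 16 * P.freyCurveInt.a₄ = -(P.a ^ P.p) * (P.b ^ P.p) :=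
  Int.mul_ediv_cancel' (sixteen_dvd_a₄_num P)

/-- The integral Frey model base-changes to the rational Frey curve. -/
theorem map_freyCurveInt : P.freyCurveInt.map (Int.castRingHom ℚ) = P.freyCurve := by
  have h2 : ((P.freyCurveInt.a₂ : ℤ) : ℚ) = ((P.b : ℚ) ^ P.p - 1 - (P.a : ℚ) ^ P.p) / 4 := by
    have := congrArg (Int.cast (R := ℚ)) (four_mul_a₂ P)
    push_cast at this
    linarith
  have h4 : ((P.freyCurveInt.a₄ : ℤ) : ℚ) = -((P.a : ℚ) ^ P.p) * ((P.b : ℚ) ^ P.p) / 16 := by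
    have := congrArg (Int.cast (R := ℚ)) (sixteen_mul_a₄ P)
    push_cast at this
    linarith
  ext
  · simp [FreyPackage.freyCurveInt, FreyPackage.freyCurve]
  · simpa [FreyPackage.freyCurve] using h2
  · simp [FreyPackage.freyCurveInt, FreyPackage.freyCurve]
  · simpa [FreyPackage.freyCurve] using h4
  · simp [FreyPackage.freyCurveInt, FreyPackage.freyCurve]

/-- `P.freyCurveInt` is an integral model of `P.freyCurve`. -/
theorem isIntegralModelOf : P.freyCurveInt.IsIntegralModelOf P.freyCurve :=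
  ⟨1, by rw [one_smul, map_freyCurveInt]⟩

theorem b₂_eq : P.freyCurveInt.b₂ = P.b ^ P.p - P.a ^ P.p := by
  have h := four_mul_a₂ P
  have h1 : P.freyCurveInt.a₁ = 1 := rfl
  rw [WeierstrassCurve.b₂, h1]
  linarith

theorem eight_mul_b₄ : 8 * P.freyCurveInt.b₄ = -(P.a ^ P.p) * (P.b ^ P.p) := by
  have h := sixteen_mul_a₄ P
  have h1 : P.freyCurveInt.a₁ = 1 := rfl
  have h3 : P.freyCurveInt.a₃ = 0 := rfl
  rw [WeierstrassCurve.b₄, h1, h3]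
  linarith

/-- `c₄ = A² + A B + B²` with `A = a^p`, `B = b^p`. -/
theorem c₄_eq : P.freyCurveInt.c₄ =
    (P.a ^ P.p) ^ 2 + P.a ^ P.p * P.b ^ P.p + (P.b ^ P.p) ^ 2 := by
  have h2 := b₂_eq P
  have h4 := eight_mul_b₄ P
  rw [WeierstrassCurve.c₄, h2]
  linarith

/-- `256 Δ = (a^p)² (b^p)² (c^p)²`. -/
theorem Δ_mul : 256 * P.freyCurveInt.Δ = (P.a ^ P.p) ^ 2 * (P.b ^ P.p) ^ 2 * (P.c ^ P.p) ^ 2 := by
  have h2 := four_mul_a₂ P
  have h4 := sixteen_mul_a₄ P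
  have h1 : P.freyCurveInt.a₁ = 1 := rfl
  have h3 : P.freyCurveInt.a₃ = 0 := rfl
  have h6 : P.freyCurveInt.a₆ = 0 := rfl
  have hc : P.c ^ P.p = P.a ^ P.p + P.b ^ P.p := P.hFLT.symm
  rw [hc]
  simp only [WeierstrassCurve.Δ, WeierstrassCurve.b₂, WeierstrassCurve.b₄, WeierstrassCurve.b₆,
    WeierstrassCurve.b₈, h1, h3, h6]
  generalize P.freyCurveInt.a₂ = x at *
  generalize P.freyCurveInt.a₄ = y at *
  generalize P.a ^ P.p = A at *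
  generalize P.b ^ P.p = B at *
  have hx : B = 4 * x + 1 + A := by linarith
  subst hx
  have hy : 16 * y = -A * (4 * x + 1 + A) := h4
  clear h2 h4 hc
  have e1 : (256 : ℤ) * (-((1 : ℤ) ^ 2 + 4 * x) ^ 2 * (1 ^ 2 * 0 + 4 * x * 0 - 1 * 0 * y + x * 0 ^ 2 - y ^ 2)
      - 8 * (2 * y + 1 * 0) ^ 3 - 27 * (0 ^ 2 + 4 * 0) ^ 2
      + 9 * (1 ^ 2 + 4 * x) * (2 * y + 1 * 0) * (0 ^ 2 + 4 * 0))
      = (16 * y) ^ 2 * ((1 + 4 * x) ^ 2 - 4 * (16 * y)) := by ring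
  rw [e1, hy]
  ring

theorem Δ_ne_zero : P.freyCurveInt.Δ ≠ 0 := by
  intro h
  have h' := Δ_mul P
  rw [h, mul_zero] at h'
  have ha : (P.a ^ P.p) ≠ 0 := pow_ne_zero _ P.ha0
  have hb : (P.b ^ P.p) ≠ 0 := pow_ne_zero _ P.hb0
  have hc : (P.c ^ P.p) ≠ 0 := pow_ne_zero _ P.hc0
  exact (mul_ne_zero (mul_ne_zero (pow_ne_zero 2 ha) (pow_ne_zero 2 hb)) (pow_ne_zero 2 hc)) h'.symm

theorem prime_int {q : ℕ} (hq : q.Prime) : Prime (q : ℤ) := Nat.prime_iff_prime_int.mp hq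

/-- A prime dividing the discriminant of the integral Frey model divides `a`, `b` or `c`. -/
theorem dvd_abc_cases_of_dvd_Δ {q : ℕ} (hq : q.Prime) (h : (q : ℤ) ∣ P.freyCurveInt.Δ) :
    (q : ℤ) ∣ P.a ∨ (q : ℤ) ∣ P.b ∨ (q : ℤ) ∣ P.c := by
  have hqp := prime_int hq
  have h1 : (q : ℤ) ∣ (P.a ^ P.p) ^ 2 * (P.b ^ P.p) ^ 2 * (P.c ^ P.p) ^ 2 := by
    rw [← Δ_mul]; exact dvd_mul_of_dvd_right h _
  rcases hqp.dvd_or_dvd h1 with h2 | h2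
  · rcases hqp.dvd_or_dvd h2 with h3 | h3
    · exact Or.inl (hqp.dvd_of_dvd_pow (hqp.dvd_of_dvd_pow h3))
    · exact Or.inr (Or.inl (hqp.dvd_of_dvd_pow (hqp.dvd_of_dvd_pow h3)))
  · exact Or.inr (Or.inr (hqp.dvd_of_dvd_pow (hqp.dvd_of_dvd_pow h2)))

/-- A prime dividing the discriminant of the integral Frey model divides `a b c`. -/
theorem dvd_abc_of_dvd_Δ {q : ℕ} (hq : q.Prime) (h : (q : ℤ) ∣ P.freyCurveInt.Δ) :
    (q : ℤ) ∣ P.a * P.b * P.c := by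
  rcases dvd_abc_cases_of_dvd_Δ P hq h with h | h | h
  · exact dvd_mul_of_dvd_left (dvd_mul_of_dvd_left h _) _
  · exact dvd_mul_of_dvd_left (dvd_mul_of_dvd_right h _) _
  · exact dvd_mul_of_dvd_right h _

theorem not_dvd_of_gcd_eq_one {q : ℕ} (hq : q.Prime) {x y : ℤ} (h : gcd x y = 1)
    (hx : (q : ℤ) ∣ x) : ¬ (q : ℤ) ∣ y := by
  intro hy
  have h1 : (q : ℤ) ∣ gcd x y := dvd_gcd hx hy
  rw [h] at h1
  exact (prime_int hq).not_dvd_one h1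

/-- The integral Frey model is semistable. -/
theorem isSemistableModel : P.freyCurveInt.IsSemistableModel := by
  intro q hq hΔ hc4
  have hqp := prime_int hq
  rw [c₄_eq] at hc4
  rcases dvd_abc_cases_of_dvd_Δ P hq hΔ with h | h | h
  · -- q ∣ a : c₄ ≡ B²
    have hA : (q : ℤ) ∣ P.a ^ P.p := dvd_pow h P.hp0
    have hB2 : (q : ℤ) ∣ (P.b ^ P.p) ^ 2 := by
      have h1 : (q : ℤ) ∣ (P.a ^ P.p) ^ 2 + P.a ^ P.p * P.b ^ P.p :=
        dvd_add (dvd_pow hA two_ne_zero) (dvd_mul_of_dvd_left hA _)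
      exact (dvd_add_right h1).mp hc4
    exact not_dvd_of_gcd_eq_one hq P.hgcdab h (hqp.dvd_of_dvd_pow (hqp.dvd_of_dvd_pow hB2))
  · -- q ∣ b : c₄ ≡ A²
    have hB : (q : ℤ) ∣ P.b ^ P.p := dvd_pow h P.hp0
    have hA2 : (q : ℤ) ∣ (P.a ^ P.p) ^ 2 := by
      have h1 : (q : ℤ) ∣ P.a ^ P.p * P.b ^ P.p + (P.b ^ P.p) ^ 2 :=
        dvd_add (dvd_mul_of_dvd_right hB _) (dvd_pow hB two_ne_zero)
      rw [add_assoc] at hc4
      exact (dvd_add_left h1).mp hc4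
    have hgcd : gcd P.b P.a = 1 := by rw [gcd_comm]; exact P.hgcdab
    exact not_dvd_of_gcd_eq_one hq hgcd h (hqp.dvd_of_dvd_pow (hqp.dvd_of_dvd_pow hA2))
  · -- q ∣ c : B ≡ -A so c₄ ≡ A²
    have hC : (q : ℤ) ∣ P.c ^ P.p := dvd_pow h P.hp0
    have hA2 : (q : ℤ) ∣ (P.a ^ P.p) ^ 2 := by
      have e : (P.a ^ P.p) ^ 2 + P.a ^ P.p * P.b ^ P.p + (P.b ^ P.p) ^ 2
          = (P.a ^ P.p) ^ 2 + P.b ^ P.p * P.c ^ P.p := by
        rw [← P.hFLT]; ring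
      rw [e] at hc4
      exact (dvd_add_left (dvd_mul_of_dvd_right hC _)).mp hc4
    have hgcd : gcd P.c P.a = 1 := by rw [gcd_comm]; exact P.hgcdac
    exact not_dvd_of_gcd_eq_one hq hgcd h (hqp.dvd_of_dvd_pow (hqp.dvd_of_dvd_pow hA2))

end Fermat.Agent.S06.FreyInt
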