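/-
S06 wiring (helper56).

* `modularRepOfLevel_of_isModularModelOfLevel`: honest modularity of an integral model of the Frey
  curve at level `N` gives `P.ModularRepOfLevel N` (congruence with difference `0`).
* `of_exactConductor`: modularity of `P.freyCurveInt` at exact conductor level gives the S06 goal.
* `ssExact_of_shapes`: "every semistable integral curve is modular of exact conductor level"
  from S51/S52/S50/S59-shaped hypotheses plus a `3`-power level bridging hypothesis.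
* `s06_of_ssExact`, `s06_of_shapes`: the S06 goal from these.
-/
import Mathlib
import Fermat.Agent.S06.FreyInt
import Fermat.Prelude.Def_FLTPrelim_ModularRep
import Fermat.Prelude.Def_FLTPrelim_Ramification
import Fermat.Prelude.Def_FreyPackage_IsConductorLevel
import Fermat.Prelude.Def_WeierstrassCurve_Mlc1RowStatement

set_option autoImplicit false

namespace Fermat.Agent.S06.Core

open WeierstrassCurve WeierstrassCurve.Affine WeierstrassCurve.Affine.Point
open scoped WeierstrassCurve.Affine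

/-- Honest modularity of an integral model of the Frey curve at level `N` gives
`P.ModularRepOfLevel N`. -/
theorem modularRepOfLevel_of_isModularModelOfLevel (P : FreyPackage) (W : WeierstrassCurve ℤ)
    (hW : W.IsIntegralModelOf P.freyCurve) {N : ℕ} (h : W.IsModularModelOfLevel N) :
    P.ModularRepOfLevel N := by
  obtain ⟨f, hf, hfa⟩ := h
  obtain ⟨𝔪, h𝔪, hp𝔪⟩ := FLTPrelim.exists_maximalIdeal_natCast_prime_mem P.pp
  refine ⟨f, W, 𝔪, hf, hW, h𝔪, hp𝔪, ?_⟩
  intro ℓ hℓ hgood hℓN _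
  refine ⟨((W.apOfModel ℓ : ℤ) : integralClosure ℤ ℂ), ?_, ?_⟩
  · rw [hfa ℓ hℓ hgood hℓN]
    simp
  · rw [sub_self]
    exact 𝔪.zero_mem

/-- Modularity of the integral Frey model at exact conductor level gives the S06 goal. -/
theorem of_exactConductor (P : FreyPackage)
    (h : Mlc1IsModularModelOfExactConductorLevel P.freyCurveInt) :
    ∃ N : ℕ, P.IsConductorLevel N ∧ P.ModularRepOfLevel N := by
  obtain ⟨N, hN, hsq, hiff, hmod⟩ := h
  refine ⟨N, ⟨hN, hsq, ?_⟩, ?_⟩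
  · intro q hq hqN
    exact FreyInt.dvd_abc_of_dvd_Δ P hq ((hiff q hq).mp hqN)
  · exact modularRepOfLevel_of_isModularModelOfLevel P P.freyCurveInt
      (FreyInt.isIntegralModelOf P) hmod

/-- "SS-exact": every semistable integral Weierstrass curve with nonzero discriminant is modular
of exact conductor level. -/
def SSExact : Prop :=
  ∀ W : WeierstrassCurve ℤ, W.Δ ≠ 0 → W.IsSemistableModel →
    Mlc1IsModularModelOfExactConductorLevel W

/-- S06 from SS-exact. -/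
theorem s06_of_ssExact (H : SSExact) (P : FreyPackage) :
    ∃ N : ℕ, P.IsConductorLevel N ∧ P.ModularRepOfLevel N :=
  of_exactConductor P (H P.freyCurveInt (FreyInt.Δ_ne_zero P) (FreyInt.isSemistableModel P))

/-- Shape of S51. -/
def Shape51 : Prop :=
  ∀ W : WeierstrassCurve ℤ, W.Δ ≠ 0 → W.IsSemistableModel →
    W.ModRepIsIrreducible 3 ∨ W.ModRepIsIrreducible 5

/-- Shape of S52. -/
def Shape52 : Prop :=
  ∀ W : WeierstrassCurve ℤ, W.Δ ≠ 0 → W.IsSemistableModel → W.ModRepIsIrreducible 5 →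
    ∃ W' : WeierstrassCurve ℤ, W'.Δ ≠ 0 ∧ W'.IsSemistableModel ∧ W'.ModRepIsIrreducible 3 ∧
      ∀ ℓ : ℕ, ℓ.Prime → W.IsGoodPrimeFor ℓ → W'.IsGoodPrimeFor ℓ → ℓ ≠ 5 →
        (5 : ℤ) ∣ (W'.apOfModel ℓ - W.apOfModel ℓ)

/-- Shape of S59. -/
def Shape59 : Prop :=
  ∀ (p : ℕ), p = 3 ∨ p = 5 → ∀ W : WeierstrassCurve ℤ, W.Δ ≠ 0 → W.IsSemistableModel →
    W.ModRepIsIrreducible p → ∀ (M₀ : ℕ) [NeZero M₀], W.IsResiduallyModularOfLevel p M₀ →
    ¬ p ^ 2 ∣ M₀ → (∀ q : ℕ, q.Prime → q ≠ p → ¬ q ^ 3 ∣ M₀) →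
    Mlc1IsModularModelOfExactConductorLevel W

/-- Langlands–Tunnell output already bridged to a level not divisible by `9`
(S50 followed by a `3`-power level reduction). -/
def Shape50Bridged : Prop :=
  ∀ W : WeierstrassCurve ℤ, W.Δ ≠ 0 → W.IsSemistableModel → W.ModRepIsIrreducible 3 →
    ∃ M : ℕ, 0 < M ∧ W.IsResiduallyModularOfLevel 3 M ∧
      (∀ q : ℕ, q.Prime → q ≠ 3 → ¬ q ^ 3 ∣ M) ∧ ¬ 3 ^ 2 ∣ M

/-- Shape of S50. -/
def Shape50 : Prop :=
  ∀ W : WeierstrassCurve ℤ, W.Δ ≠ 0 → W.IsSemistableModel → W.ModRepIsIrreducible 3 →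
    ∃ M : ℕ, 0 < M ∧ W.IsResiduallyModularOfLevel 3 M ∧
      (∀ q : ℕ, q.Prime → q ≠ 3 → ¬ q ^ 3 ∣ M) ∧
      (3 ^ 2 ∣ M →
        ∀ A : ValuationSubring (AlgebraicClosure ℚ), A.LiesOverPrime 3 →
          ∀ x : Submodule.torsionBy ℤ
              ((W.map (Int.castRingHom ℚ))⁄(AlgebraicClosure ℚ)).Point (3 : ℕ),
            (∀ σ ∈ A.inertiaSubgroupIn ℚ, σ • x = x) → x = 0)

/-- The `3`-power level reduction needed between S50 and S59 (not one of the frozen statements). -/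
def ShapeBridge3 : Prop :=
  ∀ W : WeierstrassCurve ℤ, W.Δ ≠ 0 → W.IsSemistableModel → W.ModRepIsIrreducible 3 →
    ∀ M : ℕ, 0 < M → W.IsResiduallyModularOfLevel 3 M →
      (∀ q : ℕ, q.Prime → q ≠ 3 → ¬ q ^ 3 ∣ M) → 3 ^ 2 ∣ M →
      (∀ A : ValuationSubring (AlgebraicClosure ℚ), A.LiesOverPrime 3 →
          ∀ x : Submodule.torsionBy ℤ
              ((W.map (Int.castRingHom ℚ))⁄(AlgebraicClosure ℚ)).Point (3 : ℕ),
            (∀ σ ∈ A.inertiaSubgroupIn ℚ, σ • x = x) → x = 0) →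
      ∃ M' : ℕ, 0 < M' ∧ W.IsResiduallyModularOfLevel 3 M' ∧
        (∀ q : ℕ, q.Prime → q ≠ 3 → ¬ q ^ 3 ∣ M') ∧ ¬ 3 ^ 2 ∣ M'

theorem shape50Bridged_of (h50 : Shape50) (hbr : ShapeBridge3) : Shape50Bridged := by
  intro W hΔ hss h3
  obtain ⟨M, hM, hres, hcf, hin⟩ := h50 W hΔ hss h3
  by_cases h9 : 3 ^ 2 ∣ M
  · exact hbr W hΔ hss h3 M hM hres hcf h9 (hin h9)
  · exact ⟨M, hM, hres, hcf, h9⟩

/-- A curve `W` whose `a_ℓ` are congruent mod `p` to those of a curve `W'` that is modular of exact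
conductor level is residually modular mod `p` at that (squarefree) level. -/
theorem residuallyModular_of_congruent {p : ℕ} (hp : p.Prime) (W W' : WeierstrassCurve ℤ)
    (hcong : ∀ ℓ : ℕ, ℓ.Prime → W.IsGoodPrimeFor ℓ → W'.IsGoodPrimeFor ℓ → ℓ ≠ p →
        (p : ℤ) ∣ (W'.apOfModel ℓ - W.apOfModel ℓ))
    (h : Mlc1IsModularModelOfExactConductorLevel W') :
    ∃ N : ℕ, 0 < N ∧ Squarefree N ∧ W.IsResiduallyModularOfLevel p N := by
  obtain ⟨N, hN, hsq, hiff, f, hf, hfa⟩ := h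
  obtain ⟨𝔪, h𝔪, hp𝔪⟩ := FLTPrelim.exists_maximalIdeal_natCast_prime_mem hp
  refine ⟨N, hN, hsq, f, 𝔪, hf, h𝔪, hp𝔪, ?_⟩
  intro ℓ hℓ hgood hℓN hℓp
  have hgood' : W'.IsGoodPrimeFor ℓ := fun hd => hℓN ((hiff ℓ hℓ).mpr hd)
  refine ⟨((W'.apOfModel ℓ : ℤ) : integralClosure ℤ ℂ), ?_, ?_⟩
  · rw [hfa ℓ hℓ hgood' hℓN]
    simp
  · obtain ⟨k, hk⟩ := hcong ℓ hℓ hgood hgood' hℓp
    have : ((W'.apOfModel ℓ : ℤ) : integralClosure ℤ ℂ) - ((W.apOfModel ℓ : ℤ) : integralClosure ℤ ℂ)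
        = (p : integralClosure ℤ ℂ) * ((k : ℤ) : integralClosure ℤ ℂ) := by
      rw [← Int.cast_sub, hk]
      push_cast
      ring
    rw [this]
    exact 𝔪.mul_mem_right _ hp𝔪

theorem not_sq_dvd_of_squarefree {N q : ℕ} (hq : q.Prime) (h : Squarefree N) : ¬ q ^ 2 ∣ N := by
  intro hsq
  exact Nat.squarefree_iff_prime_squarefree.mp h q hq (by rwa [← pow_two])

theorem not_cube_dvd_of_squarefree {N q : ℕ} (hq : q.Prime) (h : Squarefree N) : ¬ q ^ 3 ∣ N := by
  intro h3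
  exact not_sq_dvd_of_squarefree hq h (dvd_trans (pow_dvd_pow q (by norm_num)) h3)

/-- SS-exact from the shapes of S51, S52, S59 and the bridged Langlands–Tunnell output. -/
theorem ssExact_of_shapes (h51 : Shape51) (h52 : Shape52) (h50 : Shape50Bridged)
    (h59 : Shape59) : SSExact := by
  have key3 : ∀ W : WeierstrassCurve ℤ, W.Δ ≠ 0 → W.IsSemistableModel →
      W.ModRepIsIrreducible 3 → Mlc1IsModularModelOfExactConductorLevel W := by
    intro W hΔ hss h3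
    obtain ⟨M, hM, hres, hcf, h9⟩ := h50 W hΔ hss h3
    have : NeZero M := ⟨hM.ne'⟩
    exact h59 3 (Or.inl rfl) W hΔ hss h3 M hres h9 hcf
  intro W hΔ hss
  rcases h51 W hΔ hss with h3 | h5
  · exact key3 W hΔ hss h3
  · obtain ⟨W', hΔ', hss', h3', hcong⟩ := h52 W hΔ hss h5
    have hW' := key3 W' hΔ' hss' h3'
    obtain ⟨N, hN, hsq, hres⟩ :=
      residuallyModular_of_congruent (p := 5) (by norm_num) W W' (by exact_mod_cast hcong) hW'
    have : NeZero N := ⟨hN.ne'⟩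
    exact h59 5 (Or.inr rfl) W hΔ hss h5 N hres
      (not_sq_dvd_of_squarefree (by norm_num) hsq)
      (fun q hq _ => not_cube_dvd_of_squarefree hq hsq)

/-- S06 from the shapes. -/
theorem s06_of_shapes (h51 : Shape51) (h52 : Shape52) (h50 : Shape50Bridged)
    (h59 : Shape59) (P : FreyPackage) :
    ∃ N : ℕ, P.IsConductorLevel N ∧ P.ModularRepOfLevel N :=
  s06_of_ssExact (ssExact_of_shapes h51 h52 h50 h59) P

/-- SS-exact also gives modularity of the rational curve (shape of S60). -/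
theorem isModular_of_ssExact (H : SSExact) (W : WeierstrassCurve ℤ) (hΔ : W.Δ ≠ 0)
    (hW : W.IsSemistableModel) : (W.map (Int.castRingHom ℚ)).IsModular := by
  obtain ⟨N, hN, -, -, hmod⟩ := H W hΔ hW
  exact ⟨W, ⟨1, by rw [one_smul]⟩, N, hN, hmod⟩

end Fermat.Agent.S06.Core
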